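import Fermat.Agent.AV.Fact49.SmoothCartier
import Fermat.Agent.AV.PicDiv86.Pullback

/-!
# Step (6), symmetric version (helper49)

* `support_mul_of_isEffective` : for effective Cartier divisors `Supp (D + E) = Supp D ∪ Supp E`.
* `pullback_congr` : `CaDiv.pullback` only depends on the morphism.
* `exists_symmetric_effective_caDiv` : `X` integral separated and smooth over an algebraically
  closed field, `ι : X ⟶ X` an involution (`ι ≫ ι = 𝟙 X`, e.g. `[-1]` on an abelian variety).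
  Then there are a nonempty affine open `U` with `ι⁻¹ U = U` and an effective Cartier divisor `D`
  with `Supp D = Uᶜ` and `ι^* D = D`.  (`MW` request Q3, AV masterplan step (6): `L = 𝒪(D)`
  symmetric, `X_s = U` affine.)
-/

open AlgebraicGeometry CategoryTheory Opposite TopologicalSpace
open Fermat.Agent.AV.PicDiv86

universe u

namespace Fermat.Agent.AV.Fact49.SymmetricDiv

variable {X Y : Scheme.{u}} [IsIntegral X] [IsIntegral Y]

theorem support_mul_of_isEffective {D E : CaDiv X} (hD : D.IsEffective) (hE : E.IsEffective) :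
    (D * E).support = D.support ∪ E.support := by
  refine (CaDiv.support_mul_subset D E).antisymm ?_
  intro x hx
  by_contra hne
  obtain ⟨f, hf⟩ := D.exists_isLocalEq x
  obtain ⟨g, hg⟩ := E.exists_isLocalEq x
  have hfg : f * g ∈ stalkUnits X x :=
    (CaDiv.notMem_support_iff_of_isLocalEq (hf.mul hg)).1 hne
  have hfS := hD x f hf
  have hgS := hE x g hg
  obtain ⟨-, hinv⟩ := mem_stalkUnits_iff.1 hfg
  have hfu : f ∈ stalkUnits X x := by
    refine mem_stalkUnits_iff.2 ⟨hfS, ?_⟩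
    have : ((f⁻¹ : X.functionFieldˣ) : X.functionField) =
        (g : X.functionField) * (((f * g)⁻¹ : X.functionFieldˣ) : X.functionField) := by
      rw [← Units.val_mul]
      congr 1
      rw [mul_inv_rev, ← mul_assoc, mul_inv_cancel, one_mul]
    rw [this]
    exact (stalkSubring X x).mul_mem hgS hinv
  have hgu : g ∈ stalkUnits X x := by
    have : g = f⁻¹ * (f * g) := by rw [← mul_assoc, inv_mul_cancel, one_mul]
    rw [this]
    exact (stalkUnits X x).mul_mem ((stalkUnits X x).inv_mem hfu) hfg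
  rcases hx with hx | hx
  · exact ((CaDiv.notMem_support_iff_of_isLocalEq hf).2 hfu) hx
  · exact ((CaDiv.notMem_support_iff_of_isLocalEq hg).2 hgu) hx

theorem pullback_congr {φ ψ : Y ⟶ X} [IsDominant φ] [IsDominant ψ] (h : φ = ψ) (D : CaDiv X) :
    CaDiv.pullback φ D = CaDiv.pullback ψ D := by
  subst h
  rfl

theorem exists_symmetric_effective_caDiv {K : Type u} [Field K] [IsAlgClosed K] {X : Scheme.{u}}
    (f : X ⟶ Spec (CommRingCat.of K)) [Smooth f] [IsIntegral X] [X.IsSeparated]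
    (ι : X ⟶ X) (hι : ι ≫ ι = 𝟙 X) :
    ∃ (_ : IsDominant ι) (U : X.Opens) (D : CaDiv X), IsAffineOpen U ∧ Nonempty U ∧ ι ⁻¹ᵁ U = U ∧
      D.IsEffective ∧ D.support = (U : Set X)ᶜ ∧ CaDiv.pullback ι D = D := by
  have hiso : IsIso ι := ⟨ι, hι, hι⟩
  have hdom : IsDominant ι := inferInstance
  refine ⟨hdom, ?_⟩
  obtain ⟨x₀⟩ : Nonempty X := inferInstance
  obtain ⟨U₀, hU₀, hx₀, -⟩ :=
    exists_isAffineOpen_mem_and_subset (X := X) (x := x₀) (U := ⊤) trivial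
  have hU₁ : IsAffineOpen (ι ⁻¹ᵁ U₀) := hU₀.preimage_of_isIso ι
  have hU : IsAffineOpen (U₀ ⊓ ι ⁻¹ᵁ U₀) := hU₀.inf hU₁
  have hιι : ∀ x : X, ι (ι x) = x := by
    intro x
    rw [← Scheme.Hom.comp_apply, hι]
    rfl
  have hne : Nonempty ((U₀ ⊓ ι ⁻¹ᵁ U₀ : X.Opens)) := by
    obtain ⟨y, hy1, hy2⟩ : ((U₀ : Set X) ∩ (ι ⁻¹ᵁ U₀ : X.Opens)).Nonempty :=
      nonempty_preirreducible_inter U₀.2 (ι ⁻¹ᵁ U₀).2 ⟨x₀, hx₀⟩
        ⟨ι x₀, by change ι (ι x₀) ∈ U₀; rw [hιι]; exact hx₀⟩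
    exact ⟨⟨y, hy1, hy2⟩⟩
  have hstab : ι ⁻¹ᵁ (U₀ ⊓ ι ⁻¹ᵁ U₀) = U₀ ⊓ ι ⁻¹ᵁ U₀ := by
    ext x
    change (ι x ∈ U₀ ∧ ι (ι x) ∈ U₀) ↔ (x ∈ U₀ ∧ ι x ∈ U₀)
    rw [hιι]
    exact and_comm
  obtain ⟨D₀, hD₀, hsupp⟩ := SmoothCartier.exists_effective_caDiv_of_smooth f hU
  have hpe : (CaDiv.pullback ι D₀).IsEffective := hD₀.pullback
  have hps : (CaDiv.pullback ι D₀).support = ((U₀ ⊓ ι ⁻¹ᵁ U₀ : X.Opens) : Set X)ᶜ := by
    rw [CaDiv.support_pullback ι hD₀, hsupp]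
    ext x
    have := congrArg (fun V : X.Opens => x ∈ V) hstab
    simp only [eq_iff_iff] at this
    simp only [Set.mem_preimage, Set.mem_compl_iff, SetLike.mem_coe]
    exact not_congr this
  refine ⟨U₀ ⊓ ι ⁻¹ᵁ U₀, D₀ * CaDiv.pullback ι D₀, hU, hne, hstab, hD₀.mul hpe, ?_, ?_⟩
  · rw [support_mul_of_isEffective hD₀ hpe, hsupp, hps, Set.union_self]
  · rw [map_mul, ← CaDiv.pullback_comp, pullback_congr hι, CaDiv.pullback_id, mul_comm]

end Fermat.Agent.AV.Fact49.SymmetricDiv
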