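import Fermat.Agent.AV.Fact49.PuritySpec

open AlgebraicGeometry CategoryTheory UniqueFactorizationMonoid
open Fermat.Agent.AV.Fact49.UfdAlg Fermat.Agent.AV.Fact49.Hartogs Fermat.Agent.AV.Fact49.PuritySpec

universe u

/-!
# FACT-iv: principality of the radical ideal of the complement of an affine open (helper49)

* `vanishingIdeal_compl_principal` : `S` noetherian UFD, `V ⊆ Spec S` nonempty affine open:
  the radical ideal of `Spec S \ V` is principal.
* `affine_local_principal` : `B` noetherian domain, `B_q` a UFD: the radical ideal of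
  `Spec B \ V` is principal on a neighbourhood `D(h)` of `q`.
-/

namespace Fermat.Agent.AV.Fact49.AffinePrincipal

/-- The complement of an open of `Spec S`, as a set of primes of `S`. -/
def complSet {S : Type u} [CommRing S] (V : (Spec (CommRingCat.of S)).Opens) :
    Set (PrimeSpectrum S) :=
  {q | (show (Spec (CommRingCat.of S) : Scheme) from q) ∉ V}

theorem isClosed_complSet {S : Type u} [CommRing S] (V : (Spec (CommRingCat.of S)).Opens) :
    IsClosed (complSet V) := V.2.isClosed_compl

/-- In a noetherian UFD `S`, the radical ideal of the complement of a nonempty affine open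
`V ⊆ Spec S` is principal. -/
theorem vanishingIdeal_compl_principal (S : Type u) [CommRing S] [IsDomain S]
    [UniqueFactorizationMonoid S] [IsNoetherianRing S]
    {V : (Spec (CommRingCat.of S)).Opens} (hV : IsAffineOpen V)
    (hne : ∃ q : PrimeSpectrum S, (show (Spec (CommRingCat.of S) : Scheme) from q) ∈ V) :
    ∃ g : S, g ≠ 0 ∧ PrimeSpectrum.vanishingIdeal (complSet V) = Ideal.span {g} := by
  classical
  set J : Ideal S := PrimeSpectrum.vanishingIdeal (complSet V) with hJdef
  have hclosed : IsClosed (complSet V) := isClosed_complSet V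
  have hzero : PrimeSpectrum.zeroLocus (J : Set S) = complSet V := by
    rw [hJdef, PrimeSpectrum.zeroLocus_vanishingIdeal_eq_closure, hclosed.closure_eq]
  have hrad : J.radical = J := (PrimeSpectrum.isRadical_vanishingIdeal _).radical
  have hfin : J.minimalPrimes.Finite := J.finite_minimalPrimes_of_isNoetherianRing S
  -- each minimal prime is principal, generated by a prime element
  have hprin : ∀ P ∈ J.minimalPrimes, ∃ π : S, Prime π ∧ P = Ideal.span {π} := by
    intro P hP
    have hPprime : P.IsPrime := hP.1.1
    have hJP : J ≤ P := hP.1.2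
    let p : PrimeSpectrum S := ⟨P, hPprime⟩
    have hpV : (show (Spec (CommRingCat.of S) : Scheme) from p) ∉ V := by
      have : p ∈ PrimeSpectrum.zeroLocus (J : Set S) := hJP
      rw [hzero] at this
      exact this
    have hgen : ∀ q : PrimeSpectrum S, q < p →
        (show (Spec (CommRingCat.of S) : Scheme) from q) ∈ V := by
      intro q hq
      by_contra hqV
      have hq' : q ∈ PrimeSpectrum.zeroLocus (J : Set S) := by rw [hzero]; exact hqV
      have hJq : J ≤ q.asIdeal := hq'
      have := hP.2 ⟨q.2, hJq⟩ (le_of_lt hq)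
      exact absurd (le_antisymm (le_of_lt hq) this) (ne_of_lt hq)
    exact purity_Spec S hV hne p hpV hgen
  choose! gen hgenprime hgeneq using hprin
  refine ⟨∏ P ∈ hfin.toFinset, gen P, ?_, ?_⟩
  · rw [Finset.prod_ne_zero_iff]
    intro P hP
    exact (hgenprime P (hfin.mem_toFinset.1 hP)).ne_zero
  · ext x
    rw [Ideal.mem_span_singleton]
    constructor
    · intro hx
      apply prod_dvd_of_primes hfin.toFinset gen
      · intro P hP; exact hgenprime P (hfin.mem_toFinset.1 hP)
      · intro P hP Q hQ hPQ hass
        apply hPQ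
        rw [hgeneq P (hfin.mem_toFinset.1 hP), hgeneq Q (hfin.mem_toFinset.1 hQ)]
        exact Ideal.span_singleton_eq_span_singleton.2 hass
      · intro P hP
        have hP' := hfin.mem_toFinset.1 hP
        have := hP'.1.2 hx
        rw [hgeneq P hP', Ideal.mem_span_singleton] at this
        exact this
    · intro hx
      have hmem : x ∈ sInf J.minimalPrimes := by
        rw [Ideal.mem_sInf]
        intro P hP
        rw [hgeneq P hP, Ideal.mem_span_singleton]
        exact (Finset.dvd_prod_of_mem gen (hfin.mem_toFinset.2 hP)).trans hx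
      rw [Ideal.sInf_minimalPrimes, hrad] at hmem
      exact hmem


/-- Affine-local principality: `B` a noetherian domain, `V ⊆ Spec B` a nonempty affine open,
`q` a prime such that `B_q` (any model `S`) is a UFD.  Then the radical ideal `J` of the complement
of `V` is principal on a basic open neighbourhood `D(h)` of `q` (fraction-free statement). -/
theorem affine_local_principal (B : Type u) [CommRing B] [IsDomain B] [IsNoetherianRing B]
    {V : (Spec (CommRingCat.of B)).Opens} (hV : IsAffineOpen V)
    (hne : ∃ q : PrimeSpectrum B, (show (Spec (CommRingCat.of B) : Scheme) from q) ∈ V)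
    (q : PrimeSpectrum B) (S : Type u) [CommRing S] [Algebra B S]
    [IsLocalization.AtPrime S q.asIdeal] [UniqueFactorizationMonoid S] :
    ∃ h, h ∉ q.asIdeal ∧ ∃ g ∈ PrimeSpectrum.vanishingIdeal (complSet V), g ≠ 0 ∧
      ∀ j ∈ PrimeSpectrum.vanishingIdeal (complSet V), ∃ a, j * h = a * g := by
  have hdom : IsDomain S :=
    IsLocalization.isDomain_of_atPrime S q.asIdeal
  have hnoeth : IsNoetherianRing S :=
    IsLocalization.isNoetherianRing q.asIdeal.primeCompl S inferInstance
  have hinj : Function.Injective (algebraMap B S) :=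
    IsLocalization.injective S q.asIdeal.primeCompl_le_nonZeroDivisors
  let φ : Spec (CommRingCat.of S) ⟶ Spec (CommRingCat.of B) :=
    Spec.map (CommRingCat.ofHom (algebraMap B S))
  have hV' : IsAffineOpen (φ ⁻¹ᵁ V) := hV.preimage φ
  have hφ : ∀ y : PrimeSpectrum S, φ y = PrimeSpectrum.comap (algebraMap B S) y := fun y => rfl
  have hbotV : (show (Spec (CommRingCat.of B) : Scheme) from (⊥ : PrimeSpectrum B)) ∈ V := by
    obtain ⟨q₀, hq₀⟩ := hne
    have hsp : (⊥ : PrimeSpectrum B) ⤳ q₀ := (PrimeSpectrum.le_iff_specializes _ _).1 bot_le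
    exact hsp.mem_open V.2 hq₀
  have hne' : ∃ y : PrimeSpectrum S, (show (Spec (CommRingCat.of S) : Scheme) from y) ∈ φ ⁻¹ᵁ V := by
    refine ⟨(⊥ : PrimeSpectrum S), ?_⟩
    change φ (⊥ : PrimeSpectrum S) ∈ V
    rw [hφ]
    have hb : PrimeSpectrum.comap (algebraMap B S) (⊥ : PrimeSpectrum S) = ⊥ := by
      apply PrimeSpectrum.ext
      ext x
      simp only [PrimeSpectrum.comap_asIdeal, Ideal.mem_comap]
      constructor
      · intro hx
        have h0 : algebraMap B S x = 0 := hx
        have := hinj (h0.trans (map_zero _).symm)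
        rw [this]; exact Ideal.zero_mem _
      · intro hx
        have : x = 0 := hx
        rw [this, map_zero]; exact Ideal.zero_mem _
    rw [hb]
    exact hbotV
  set J : Ideal B := PrimeSpectrum.vanishingIdeal (complSet V) with hJdef
  have hzero : PrimeSpectrum.zeroLocus (J : Set B) = complSet V := by
    rw [hJdef, PrimeSpectrum.zeroLocus_vanishingIdeal_eq_closure, (isClosed_complSet V).closure_eq]
  have hrad : J.radical = J := (PrimeSpectrum.isRadical_vanishingIdeal _).radical
  have hcompl : complSet (φ ⁻¹ᵁ V) = PrimeSpectrum.comap (algebraMap B S) ⁻¹' complSet V := rfl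
  have hJmap : PrimeSpectrum.vanishingIdeal (complSet (φ ⁻¹ᵁ V)) = J.map (algebraMap B S) := by
    rw [hcompl, ← hzero, PrimeSpectrum.preimage_comap_zeroLocus, ← PrimeSpectrum.zeroLocus_span,
      ← Ideal.map, PrimeSpectrum.vanishingIdeal_zeroLocus_eq_radical,
      ← IsLocalization.map_radical q.asIdeal.primeCompl S, hrad]
  obtain ⟨γ, hγ0, hγ⟩ := vanishingIdeal_compl_principal S hV' hne'
  rw [hJmap] at hγ
  obtain ⟨h, hhq, g, hgJ, hspan, hall⟩ := exists_mul_eq_of_map_principal J
    ((isNoetherianRing_iff_ideal_fg B).1 inferInstance J) q.asIdeal S γ hγ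
  refine ⟨h, hhq, g, hgJ, ?_, hall⟩
  rintro rfl
  rw [map_zero] at hspan
  rw [hγ] at hspan
  have : γ ∈ Ideal.span {(0 : S)} := hspan ▸ Ideal.mem_span_singleton_self γ
  rw [Ideal.mem_span_singleton, zero_dvd_iff] at this
  exact hγ0 this

end Fermat.Agent.AV.Fact49.AffinePrincipal
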