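import Fermat.Agent.AV.Fact49.PurityClosed
import Fermat.Agent.AV.PicDiv86.Basic

/-!
# FACT-iv ⇒ PIC-div: the effective Cartier divisor with support `X \ U` (helper49)

`exists_effective_caDiv` : `X` integral separated locally noetherian, all stalks UFDs, `U` a
nonempty affine open.  Then there is an effective Cartier divisor `D : CaDiv X`
(helper86's `PicDiv86.CaDiv`) with `D.support = Uᶜ`.  By `PicDiv86.CaDiv.one_generates_iff` the
canonical section `1 ∈ H⁰(D)` of `L = 𝒪(D)` then has non-vanishing locus exactly `U`.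

`exists_effective_caDiv_of_closedPoints` : same, assuming factoriality at closed points only
(`X` quasi-compact).
-/

open AlgebraicGeometry CategoryTheory Opposite TopologicalSpace
open Fermat.Agent.AV.Fact49.Purity Fermat.Agent.AV.Fact49.StalkUFD Fermat.Agent.AV.PicDiv86

universe u

namespace Fermat.Agent.AV.Fact49.CartierDiv

theorem exists_effective_caDiv {X : Scheme.{u}} [IsIntegral X] [X.IsSeparated]
    [IsLocallyNoetherian X]
    (hfact : ∀ x : X, UniqueFactorizationMonoid (X.presheaf.stalk x))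
    {U : X.Opens} (hU : IsAffineOpen U) [hne : Nonempty U] :
    ∃ D : CaDiv X, D.IsEffective ∧ D.support = (U : Set X)ᶜ := by
  obtain ⟨W, g, hxW, hg0, -, hbasic, hassoc⟩ := exists_cartier_data hfact hU
  have hneW : ∀ x, Nonempty (W x).1 := fun x => ⟨⟨x, hxW x⟩⟩
  let φ : X → X.functionField := fun x => X.germToFunctionField (W x).1 (g x)
  have hφ0 : ∀ x, φ x ≠ 0 := by
    intro x h0
    apply hg0 x
    apply X.germToFunctionField_injective (W x).1
    rw [map_zero]
    exact h0
  let f : X → X.functionFieldˣ := fun x => Units.mk0 (φ x) (hφ0 x)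
  have hf : ∀ x y, ∀ z ∈ (W x).1 ⊓ (W y).1, (f x)⁻¹ * f y ∈ stalkUnits X z := by
    intro x y z hz
    obtain ⟨W'', hW'', hzW'', hsub⟩ := exists_isAffineOpen_mem_and_subset (X := X) hz
    have hle : W'' ≤ (W x).1 ⊓ (W y).1 := hsub
    have h1 : W'' ≤ (W x).1 := hle.trans inf_le_left
    have h2 : W'' ≤ (W y).1 := hle.trans inf_le_right
    have : Nonempty W'' := ⟨⟨z, hzW''⟩⟩
    obtain ⟨u, hu⟩ := hassoc x y ⟨W'', hW''⟩ h1 h2
    have e1 : X.germToFunctionField W'' ((X.presheaf.map (homOfLE h1).op).hom (g x)) = φ x :=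
      X.presheaf.germ_res_apply (homOfLE h1) _ _ (g x)
    have e2 : X.germToFunctionField W'' ((X.presheaf.map (homOfLE h2).op).hom (g y)) = φ y :=
      X.presheaf.germ_res_apply (homOfLE h2) _ _ (g y)
    have e3 : φ x * X.germToFunctionField W'' (u : Γ(X, W'')) = φ y := by
      rw [← e1, ← e2, ← map_mul, hu]
    refine (mem_stalkUnits_iff_isUnit (X.presheaf.germ W'' z hzW'' (u : Γ(X, W''))) _ ?_).2
      (u.isUnit.map _)
    rw [Scheme.algebraMap_germ_eq_germToFunctionField]
    have : X.germToFunctionField W'' (u : Γ(X, W'')) = (φ x)⁻¹ * φ y := by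
      rw [← e3, ← mul_assoc, inv_mul_cancel₀ (hφ0 x), one_mul]
    rw [this]
    simp [f]
  refine ⟨CaDiv.ofLocalEqs (fun x => (W x).1) (fun x => ⟨x, hxW x⟩) f hf, ?_, ?_⟩
  · apply CaDiv.isEffective_of_exists
    intro z
    refine ⟨f z, CaDiv.isLocalEq_ofLocalEqs _ _ f hf z z (hxW z), ?_⟩
    exact germToFunctionField_mem_stalkSubring (hxW z) (g z)
  · ext z
    have hloc := CaDiv.isLocalEq_ofLocalEqs (fun x => (W x).1) (fun x => ⟨x, hxW x⟩) f hf z z (hxW z)
    have h1 := CaDiv.notMem_support_iff_of_isLocalEq hloc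
    have h2 : f z ∈ stalkUnits X z ↔ IsUnit (X.presheaf.germ (W z).1 z (hxW z) (g z)) :=
      mem_stalkUnits_iff_isUnit (X.presheaf.germ (W z).1 z (hxW z) (g z)) (f z)
        (Scheme.algebraMap_germ_eq_germToFunctionField X (hxW z) (g z))
    have h3 : z ∈ X.basicOpen (g z) ↔ IsUnit (X.presheaf.germ (W z).1 z (hxW z) (g z)) :=
      Scheme.mem_basicOpen X (g z) z (hxW z)
    have h4 : z ∈ X.basicOpen (g z) ↔ z ∈ U := by
      rw [hbasic z]
      exact ⟨fun h => h.2, fun h => ⟨hxW z, h⟩⟩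
    rw [Set.mem_compl_iff, SetLike.mem_coe, ← h4, h3, ← h2, ← h1, not_not]

theorem exists_effective_caDiv_of_closedPoints {X : Scheme.{u}} [IsIntegral X] [X.IsSeparated]
    [IsLocallyNoetherian X] [CompactSpace X]
    (hfact : ∀ x : X, IsClosed ({x} : Set X) → UniqueFactorizationMonoid (X.presheaf.stalk x))
    {U : X.Opens} (hU : IsAffineOpen U) [hne : Nonempty U] :
    ∃ D : CaDiv X, D.IsEffective ∧ D.support = (U : Set X)ᶜ :=
  exists_effective_caDiv (ufd_stalks_of_closedPoints hfact) hU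

end Fermat.Agent.AV.Fact49.CartierDiv
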