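import Mathlib

/-!
# FACT-iv, scheme-level Hartogs kernel (helper49)

* `eq_top_of_bijective_res` : an affine open `V` of an affine scheme `X` with
  `Γ(X, ⊤) → Γ(X, V)` bijective is everything.
* `eq_top_of_hartogs` : `Y` affine integral, `V` affine open nonempty, `PP ⊆ V` a set of points
  such that `Γ(Y, ⊤) = ⋂_{P ∈ PP} 𝒪_{Y,P}` (stated without fractions).  Then `V = ⊤`.
* `eq_top_of_hartogs_Spec` : the same for `Y = Spec R`, hypotheses in terms of `R`.
-/

open AlgebraicGeometry CategoryTheory Opposite TopologicalSpace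

universe u

namespace Fermat.Agent.AV.Fact49.Hartogs

/-- An affine open of an affine scheme on which restriction of global sections is bijective
is the whole scheme. -/
theorem eq_top_of_bijective_res {X : Scheme.{u}} [IsAffine X] {V : X.Opens} (hV : IsAffineOpen V)
    (hbij : Function.Bijective (X.presheaf.map (homOfLE (le_top : V ≤ ⊤)).op).hom) : V = ⊤ := by
  have h1 : IsIso (X.presheaf.map (homOfLE (le_top : V ≤ ⊤)).op) := by
    rw [ConcreteCategory.isIso_iff_bijective]
    exact hbij
  have h2 : IsIso (hV.fromSpec ≫ X.toSpecΓ) := by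
    rw [hV.fromSpec_toSpecΓ]; infer_instance
  have h3 : IsIso hV.fromSpec := IsIso.of_isIso_comp_right _ X.toSpecΓ
  have h4 : Function.Surjective hV.fromSpec := by
    have := (TopCat.homeoOfIso (Scheme.forgetToTop.mapIso (asIso hV.fromSpec))).surjective
    exact this
  have h5 : Set.range hV.fromSpec = Set.univ := h4.range_eq
  rw [hV.range_fromSpec] at h5
  ext x
  simp [h5]

/-- Abstract Hartogs: if every "fraction" `a₀ / b₀` of global sections which is regular at all
points of `PP ⊆ V` is a global section, then the nonempty affine open `V` of the affine integral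
scheme `Y` is everything. -/
theorem eq_top_of_hartogs {Y : Scheme.{u}} [IsAffine Y] [IsIntegral Y] {V : Y.Opens}
    (hV : IsAffineOpen V) [Nonempty V] (PP : Set Y) (hPP : PP ⊆ V)
    (hH : ∀ a₀ b₀ : Γ(Y, ⊤), b₀ ≠ 0 →
      (∀ P ∈ PP, ∃ a b : Γ(Y, ⊤), P ∈ Y.basicOpen b ∧ a₀ * b = a * b₀) → b₀ ∣ a₀) :
    V = ⊤ := by
  apply eq_top_of_bijective_res hV
  have : Nonempty (⊤ : Y.Opens) := ⟨⟨(‹Nonempty V›.some).1, trivial⟩⟩
  have hfr : IsFractionRing Γ(Y, ⊤) Y.functionField :=
    functionField_isFractionRing_of_isAffineOpen Y ⊤ (isAffineOpen_top Y)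
  have hinjT := Y.germToFunctionField_injective (⊤ : Y.Opens)
  have hinjV := Y.germToFunctionField_injective V
  have hres : ∀ r : Γ(Y, ⊤), Y.germToFunctionField V
      ((Y.presheaf.map (homOfLE (le_top : V ≤ ⊤)).op).hom r) = Y.germToFunctionField ⊤ r := by
    intro r
    exact Y.presheaf.germ_res_apply (homOfLE (le_top : V ≤ ⊤)) _ _ r
  constructor
  · intro r₁ r₂ h
    apply hinjT
    rw [← hres, ← hres, h]
  · intro s
    set x : Y.functionField := Y.germToFunctionField V s with hxdef
    obtain ⟨a₀, b₀, hb₀, hx⟩ := IsFractionRing.div_surjective (A := Γ(Y, ⊤)) x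
    have hb₀' : b₀ ≠ 0 := nonZeroDivisors.ne_zero hb₀
    have hb₀K : algebraMap Γ(Y, ⊤) Y.functionField b₀ ≠ 0 := by
      intro h0
      exact hb₀' ((IsFractionRing.injective Γ(Y, ⊤) Y.functionField) (by simpa using h0))
    have hx' : x * algebraMap Γ(Y, ⊤) Y.functionField b₀ =
        algebraMap Γ(Y, ⊤) Y.functionField a₀ := by
      rw [← hx]; field_simp
    have key : b₀ ∣ a₀ := by
      apply hH a₀ b₀ hb₀'
      intro P hP
      have hPV : P ∈ V := hPP hP
      let _ := TopCat.Presheaf.algebra_section_stalk Y.presheaf (⟨P, trivial⟩ : (⊤ : Y.Opens))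
      have hloc := (isAffineOpen_top Y).isLocalization_stalk ⟨P, trivial⟩
      obtain ⟨⟨a, b⟩, hab⟩ := IsLocalization.surj
        ((isAffineOpen_top Y).primeIdealOf ⟨P, trivial⟩).asIdeal.primeCompl
        (Y.presheaf.germ V P hPV s)
      have hbP : P ∈ Y.basicOpen b.1 := by
        rw [Scheme.mem_basicOpen_top]
        exact IsLocalization.map_units (M := ((isAffineOpen_top Y).primeIdealOf
          ⟨P, trivial⟩).asIdeal.primeCompl) (Y.presheaf.stalk P) b
      refine ⟨a, b.1, hbP, ?_⟩
      have h2 := congrArg (algebraMap (Y.presheaf.stalk P) Y.functionField) hab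
      rw [map_mul] at h2
      erw [Y.algebraMap_germ_eq_germToFunctionField, Y.algebraMap_germ_eq_germToFunctionField,
        Y.algebraMap_germ_eq_germToFunctionField] at h2
      have h3 : x * algebraMap Γ(Y, ⊤) Y.functionField b.1 =
          algebraMap Γ(Y, ⊤) Y.functionField a := h2
      apply IsFractionRing.injective Γ(Y, ⊤) Y.functionField
      rw [map_mul, map_mul, ← hx', ← h3]
      ring
    obtain ⟨r, hr⟩ := key
    refine ⟨r, ?_⟩
    apply hinjV
    rw [hres]
    have h4 : algebraMap Γ(Y, ⊤) Y.functionField r = x := by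
      have : algebraMap Γ(Y, ⊤) Y.functionField b₀ * algebraMap Γ(Y, ⊤) Y.functionField r =
          algebraMap Γ(Y, ⊤) Y.functionField b₀ * x := by
        rw [← map_mul, ← hr, ← hx']; ring
      exact mul_left_cancel₀ hb₀K this
    exact h4

/-- `eq_top_of_hartogs` for `Y = Spec R`, hypotheses phrased in `R`. -/
theorem eq_top_of_hartogs_Spec (R : CommRingCat.{u}) [IsDomain R] {V : (Spec R).Opens}
    (hV : IsAffineOpen V) [Nonempty V] (PP : Set (PrimeSpectrum R))
    (hPP : ∀ P ∈ PP, (show (Spec R : Scheme) from P) ∈ V)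
    (hH : ∀ a₀ b₀ : R, b₀ ≠ 0 →
      (∀ P ∈ PP, ∃ a b : R, b ∉ P.asIdeal ∧ a₀ * b = a * b₀) → b₀ ∣ a₀) :
    V = ⊤ := by
  refine eq_top_of_hartogs (Y := Spec R) hV PP (fun P hP => hPP P hP) ?_
  intro a₀ b₀ hb₀ h
  set e := (Scheme.ΓSpecIso R).commRingCatIsoToRingEquiv with he
  have hdiv : e b₀ ∣ e a₀ := by
    apply hH (e a₀) (e b₀) (by simpa using hb₀)
    intro P hP
    obtain ⟨a, b, hb, hab⟩ := h P hP
    refine ⟨e a, e b, ?_, ?_⟩
    · rw [basicOpen_eq_of_affine'] at hb
      exact hb
    · rw [← map_mul, ← map_mul, hab]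
  obtain ⟨c, hc⟩ := hdiv
  refine ⟨e.symm c, ?_⟩
  apply e.injective
  rw [map_mul, hc]
  simp

end Fermat.Agent.AV.Fact49.Hartogs
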