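/-
Fermat/Agent/AV/Fact49/PicCalcInst.lean  (helper49, programme AV = S26/S27; also MW INST-2c)

**The Picard calculus of brick PIC-core (`Pic38`) as an instance of helper82's abstract
`Cube82.PicCalc`.**  One term: `picCalc38 : Cube82.PicCalc.{u+1, u}`.
-/
import Fermat.Agent.AV.Pic38.Map
import Fermat.Agent.AV.Cube82.PicCalc

set_option autoImplicit false

noncomputable section

universe u

open CategoryTheory AlgebraicGeometry

namespace Fermat.Agent.AV.Fact49.PicCalcInst

open Fermat.Agent.AV

/-- `Pic38` is a Picard calculus in the sense of `Cube82.PicCalc`. -/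
def picCalc38 : Cube82.PicCalc.{u + 1, u} where
  Pic X := Pic38.Pic X
  grp X := inferInstance
  map f := Pic38.Pic.map f
  map_id X p := by rw [Pic38.Pic.map_id]; rfl
  map_comp f g p := Pic38.Pic.map_comp_apply f g p
  cls M hM := Pic38.Pic.mk M hM
  cls_surjective p := by
    induction p using Pic38.Pic.ind with
    | _ M hM => exact ⟨M, hM, rfl⟩
  cls_eq_one_iff M hM := Pic38.Pic.mk_eq_one_iff hM
  map_cls f M hM := Pic38.Pic.map_mk f hM

@[simp] theorem picCalc38_Pic (X : Scheme.{u}) : picCalc38.Pic X = Pic38.Pic X := rfl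

theorem picCalc38_map {X Y : Scheme.{u}} (f : X ⟶ Y) (p : Pic38.Pic Y) :
    picCalc38.map f p = Pic38.Pic.map f p := rfl

theorem picCalc38_cls {X : Scheme.{u}} (M : X.Modules) (hM : M.IsInvertible) :
    picCalc38.cls M hM = Pic38.Pic.mk M hM := rfl

end Fermat.Agent.AV.Fact49.PicCalcInst
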