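import Fermat.Agent.AV.Fact49.AffinePrincipal

open AlgebraicGeometry CategoryTheory Opposite TopologicalSpace
open Fermat.Agent.AV.Fact49.UfdAlg Fermat.Agent.AV.Fact49.AffinePrincipal

universe u

/-!
# FACT-iv: the reduced complement of an affine open is an effective Cartier divisor (helper49)

`X` integral, separated, locally noetherian, all local rings UFDs (locally factorial), `U ⊆ X` a
nonempty affine open.  Then the radical ideal sheaf `𝓘` of `X \ U`
(`Scheme.IdealSheafData.vanishingIdeal (complCloseds U)`) is locally principal: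

* `exists_local_equation` : every `x : X` has an affine open neighbourhood `W` and `g ∈ Γ(X, W)`,
  `g ≠ 0`, with `𝓘(W) = (g)`.
* `basicOpen_eq_of_ideal_eq` : for such `(W, g)`, `D(g) = W ∩ U`.
* `associated_of_ideal_eq` : two such local equations differ by a unit on every smaller affine open
  (cocycle condition).
* `exists_cartier_data` : the three packaged (a choice of `(W x, g x)` for every point `x`).

No purity statement is needed by the consumers, but it is what the proof does: the generic points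
of `X \ U` have one-dimensional (principal maximal ideal) local rings, see `PuritySpec.purity_Spec`.
-/

namespace Fermat.Agent.AV.Fact49.Purity

/-- the closed complement of an open -/
def complCloseds {X : Scheme.{u}} (U : X.Opens) : Closeds X := ⟨(U : Set X)ᶜ, U.2.isClosed_compl⟩

theorem isAffineHom_fromSpec {X : Scheme.{u}} [X.IsSeparated] {W : X.Opens} (hW : IsAffineOpen W) :
    IsAffineHom hW.fromSpec := by
  have : IsAffineHom (hW.fromSpec ≫ Limits.terminal.from X) := inferInstance
  exact IsAffineHom.of_comp hW.fromSpec (Limits.terminal.from X)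

theorem exists_local_equation {X : Scheme.{u}} [IsIntegral X] [X.IsSeparated]
    [IsLocallyNoetherian X]
    (hfact : ∀ x : X, UniqueFactorizationMonoid (X.presheaf.stalk x))
    {U : X.Opens} (hU : IsAffineOpen U) [hne : Nonempty U] (x : X) :
    ∃ (W : X.affineOpens) (_ : x ∈ W.1) (g : Γ(X, W.1)), g ≠ 0 ∧
      (Scheme.IdealSheafData.vanishingIdeal (complCloseds U)).ideal W = Ideal.span {g} := by
  obtain ⟨W₀, hW₀, hxW₀, -⟩ := exists_isAffineOpen_mem_and_subset (X := X) (x := x) (U := ⊤) trivial
  have : Nonempty W₀ := ⟨⟨x, hxW₀⟩⟩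
  have hAff : IsAffineHom hW₀.fromSpec := isAffineHom_fromSpec hW₀
  have hV : IsAffineOpen (hW₀.fromSpec ⁻¹ᵁ U) := hU.preimage hW₀.fromSpec
  have hnoeth : IsNoetherianRing Γ(X, W₀) := IsLocallyNoetherian.component_noetherian ⟨W₀, hW₀⟩
  -- nonemptiness
  have hneV : ∃ q : PrimeSpectrum Γ(X, W₀),
      (show (Spec (CommRingCat.of Γ(X, W₀)) : Scheme) from q) ∈ hW₀.fromSpec ⁻¹ᵁ U := by
    obtain ⟨y, hyU, hyW⟩ : ((U : Set X) ∩ (W₀ : Set X)).Nonempty :=
      nonempty_preirreducible_inter U.2 W₀.2 ⟨hne.some.1, hne.some.2⟩ ⟨x, hxW₀⟩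
    refine ⟨hW₀.primeIdealOf ⟨y, hyW⟩, ?_⟩
    change hW₀.fromSpec (hW₀.primeIdealOf ⟨y, hyW⟩) ∈ U
    rw [hW₀.fromSpec_primeIdealOf]
    exact hyU
  let q := hW₀.primeIdealOf ⟨x, hxW₀⟩
  let _ := TopCat.Presheaf.algebra_section_stalk X.presheaf (⟨x, hxW₀⟩ : W₀)
  have hloc : IsLocalization.AtPrime (X.presheaf.stalk x) q.asIdeal :=
    hW₀.isLocalization_stalk ⟨x, hxW₀⟩
  have hufd := hfact x
  obtain ⟨h, hhq, g, hgJ, hg0, hall⟩ :=
    affine_local_principal Γ(X, W₀) hV hneV q (X.presheaf.stalk x)
  have hxh : x ∈ X.basicOpen h := by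
    rw [Scheme.mem_basicOpen X h x hxW₀]
    by_contra hnu
    apply hhq
    have : q = Spec.map (X.presheaf.germ W₀ x hxW₀) (IsLocalRing.closedPoint _) :=
      hW₀.primeIdealOf_eq_map_closedPoint ⟨x, hxW₀⟩
    rw [this]
    change (X.presheaf.germ W₀ x hxW₀) h ∈ IsLocalRing.maximalIdeal _
    rwa [IsLocalRing.mem_maximalIdeal, mem_nonunits_iff]
  have hlocA : IsLocalization.Away h Γ(X, X.basicOpen h) := hW₀.isLocalization_basicOpen h
  have hJ : (Scheme.IdealSheafData.vanishingIdeal (complCloseds U)).ideal ⟨W₀, hW₀⟩ =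
      PrimeSpectrum.vanishingIdeal (complSet (hW₀.fromSpec ⁻¹ᵁ U)) := by
    rw [Scheme.IdealSheafData.vanishingIdeal_ideal]
    rfl
  have hh0 : h ≠ 0 := by
    rintro rfl
    exact hhq (Ideal.zero_mem _)
  have hinj : Function.Injective (algebraMap Γ(X, W₀) Γ(X, X.basicOpen h)) :=
    IsLocalization.injective _ (M := Submonoid.powers h)
      (powers_le_nonZeroDivisors_of_noZeroDivisors hh0)
  refine ⟨X.affineBasicOpen (U := ⟨W₀, hW₀⟩) h, hxh, algebraMap Γ(X, W₀) Γ(X, X.basicOpen h) g, ?_, ?_⟩
  · intro h0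
    exact hg0 (hinj (h0.trans (map_zero _).symm))
  · rw [← (Scheme.IdealSheafData.vanishingIdeal (complCloseds U)).map_ideal_basicOpen ⟨W₀, hW₀⟩ h,
      hJ]
    exact map_away_eq_span _ h g hgJ hall Γ(X, X.basicOpen h)


/-- If the vanishing ideal of `X \ U` is generated by `g` on the affine open `W`, then
`D(g) = W ∩ U`. -/
theorem basicOpen_eq_of_ideal_eq {X : Scheme.{u}} {U : X.Opens} (W : X.affineOpens) (g : Γ(X, W.1))
    (hg : (Scheme.IdealSheafData.vanishingIdeal (complCloseds U)).ideal W = Ideal.span {g}) :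
    X.basicOpen g = W.1 ⊓ U := by
  ext x
  by_cases hxW : x ∈ W.1
  · have h1 := Scheme.IdealSheafData.mem_support_iff_of_mem
      (I := Scheme.IdealSheafData.vanishingIdeal (complCloseds U)) hxW
    rw [hg, Scheme.zeroLocus_span, Scheme.zeroLocus_singleton] at h1
    have h2 : x ∈ (Scheme.IdealSheafData.vanishingIdeal (complCloseds U)).support ↔ x ∉ U := by
      rw [← SetLike.mem_coe, Scheme.IdealSheafData.coe_support_vanishingIdeal]
      rfl
    rw [h2] at h1
    constructor
    · intro hx
      refine ⟨hxW, ?_⟩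
      by_contra hxU
      exact (h1.1 hxU) hx
    · rintro ⟨-, hxU⟩
      by_contra hx
      exact (h1.2 hx) hxU
  · constructor
    · intro hx
      exact absurd (X.basicOpen_le g hx) hxW
    · rintro ⟨h, -⟩
      exact absurd h hxW

/-- Two local equations of `X \ U` agree up to a unit on any smaller affine open. -/
theorem associated_of_ideal_eq {X : Scheme.{u}} [IsIntegral X] {U : X.Opens}
    (W W' W'' : X.affineOpens) (h : W''.1 ≤ W.1) (h' : W''.1 ≤ W'.1)
    (g : Γ(X, W.1)) (g' : Γ(X, W'.1))
    (hg : (Scheme.IdealSheafData.vanishingIdeal (complCloseds U)).ideal W = Ideal.span {g})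
    (hg' : (Scheme.IdealSheafData.vanishingIdeal (complCloseds U)).ideal W' = Ideal.span {g'}) :
    Associated ((X.presheaf.map (homOfLE h).op).hom g) ((X.presheaf.map (homOfLE h').op).hom g') := by
  by_cases hne : Nonempty W''.1
  · have e1 := (Scheme.IdealSheafData.vanishingIdeal (complCloseds U)).map_ideal (U := W'') (V := W) h
    have e2 := (Scheme.IdealSheafData.vanishingIdeal (complCloseds U)).map_ideal (U := W'') (V := W') h'
    rw [hg, Ideal.map_span, Set.image_singleton] at e1
    rw [hg', Ideal.map_span, Set.image_singleton] at e2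
    exact Ideal.span_singleton_eq_span_singleton.1 (e1.trans e2.symm)
  · have : Subsingleton Γ(X, W''.1) := by
      have hbot : W''.1 = ⊥ := by
        ext x
        simp only [Opens.coe_bot, Set.mem_empty_iff_false, iff_false]
        intro hx
        exact hne ⟨⟨x, hx⟩⟩
      rw [hbot]
      infer_instance
    rw [Subsingleton.elim ((X.presheaf.map (homOfLE h).op).hom g) ((X.presheaf.map (homOfLE h').op).hom g')]


/-- Packaged effective Cartier data for the reduced complement of a nonempty affine open `U`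
in a locally factorial integral separated locally noetherian scheme. -/
theorem exists_cartier_data {X : Scheme.{u}} [IsIntegral X] [X.IsSeparated]
    [IsLocallyNoetherian X]
    (hfact : ∀ x : X, UniqueFactorizationMonoid (X.presheaf.stalk x))
    {U : X.Opens} (hU : IsAffineOpen U) [hne : Nonempty U] :
    ∃ (W : X → X.affineOpens) (g : ∀ x : X, Γ(X, (W x).1)),
      (∀ x, x ∈ (W x).1) ∧ (∀ x, g x ≠ 0) ∧
      (∀ x, (Scheme.IdealSheafData.vanishingIdeal (complCloseds U)).ideal (W x) =
        Ideal.span {g x}) ∧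
      (∀ x, X.basicOpen (g x) = (W x).1 ⊓ U) ∧
      (∀ (x y : X) (W'' : X.affineOpens) (h : W''.1 ≤ (W x).1) (h' : W''.1 ≤ (W y).1),
        Associated ((X.presheaf.map (homOfLE h).op).hom (g x))
          ((X.presheaf.map (homOfLE h').op).hom (g y))) := by
  choose W hxW g hg0 hg using fun x => exists_local_equation hfact hU x
  refine ⟨W, g, hxW, hg0, hg, fun x => basicOpen_eq_of_ideal_eq (W x) (g x) (hg x), ?_⟩
  intro x y W'' h h'
  exact associated_of_ideal_eq (W x) (W y) W'' h h' (g x) (g y) (hg x) (hg y)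

end Fermat.Agent.AV.Fact49.Purity
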