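import Mathlib

/-!
# FACT glue: factoriality of all stalks from factoriality at closed points (helper49)

* `mem_primeIdealOf_iff` : `b ∈ primeIdealOf x ↔ x ∉ D(b)`.
* `ufd_stalk_of_specializes` : if `y ⤳ x` and `𝒪_{X,x}` is a UFD then so is `𝒪_{X,y}`
  (it is a localisation of `𝒪_{X,x}`).
* `ufd_stalks_of_closedPoints` : on a quasi-compact scheme, factoriality of the local rings at
  closed points implies factoriality of all local rings.
-/

open AlgebraicGeometry CategoryTheory Opposite TopologicalSpace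

universe u

namespace Fermat.Agent.AV.Fact49.StalkUFD

theorem mem_primeIdealOf_iff {X : Scheme.{u}} {W : X.Opens} (hW : IsAffineOpen W) (x : X)
    (hx : x ∈ W) (b : Γ(X, W)) :
    b ∈ (hW.primeIdealOf ⟨x, hx⟩).asIdeal ↔ x ∉ X.basicOpen b := by
  rw [Scheme.mem_basicOpen X b x hx]
  have : hW.primeIdealOf ⟨x, hx⟩ =
      Spec.map (X.presheaf.germ W x hx) (IsLocalRing.closedPoint _) :=
    hW.primeIdealOf_eq_map_closedPoint ⟨x, hx⟩
  rw [this]
  change (X.presheaf.germ W x hx) b ∈ IsLocalRing.maximalIdeal _ ↔ _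
  rw [IsLocalRing.mem_maximalIdeal, mem_nonunits_iff]

/-- The local ring at a generisation `y` of `x` is a localisation of the local ring at `x`;
in particular it is a UFD if `𝒪_{X,x}` is. -/
theorem ufd_stalk_of_specializes {X : Scheme.{u}} {x y : X} (h : y ⤳ x)
    [UniqueFactorizationMonoid (X.presheaf.stalk x)] :
    UniqueFactorizationMonoid (X.presheaf.stalk y) := by
  obtain ⟨W, hW, hxW, -⟩ :=
    exists_isAffineOpen_mem_and_subset (X := X) (x := x) (U := ⊤) trivial
  have hyW : y ∈ W := h.mem_open W.2 hxW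
  let _ := TopCat.Presheaf.algebra_section_stalk X.presheaf (⟨x, hxW⟩ : W)
  let _ := TopCat.Presheaf.algebra_section_stalk X.presheaf (⟨y, hyW⟩ : W)
  have hlocx : IsLocalization.AtPrime (X.presheaf.stalk x)
      (hW.primeIdealOf ⟨x, hxW⟩).asIdeal := hW.isLocalization_stalk ⟨x, hxW⟩
  have hlocy : IsLocalization.AtPrime (X.presheaf.stalk y)
      (hW.primeIdealOf ⟨y, hyW⟩).asIdeal := hW.isLocalization_stalk ⟨y, hyW⟩
  let _ : Algebra (X.presheaf.stalk x) (X.presheaf.stalk y) :=
    (X.presheaf.stalkSpecializes h).hom.toAlgebra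
  have htower : IsScalarTower Γ(X, W) (X.presheaf.stalk x) (X.presheaf.stalk y) := by
    apply IsScalarTower.of_algebraMap_eq'
    simp only [RingHom.algebraMap_toAlgebra]
    rw [← CommRingCat.hom_comp, X.presheaf.germ_stalkSpecializes]
  have hle : (hW.primeIdealOf ⟨x, hxW⟩).asIdeal.primeCompl ≤
      (hW.primeIdealOf ⟨y, hyW⟩).asIdeal.primeCompl := by
    intro b hb
    have hb' : ¬ b ∈ (hW.primeIdealOf ⟨x, hxW⟩).asIdeal := hb
    have hgoal : ¬ b ∈ (hW.primeIdealOf ⟨y, hyW⟩).asIdeal := by
      rw [mem_primeIdealOf_iff, not_not] at hb' ⊢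
      exact h.mem_open (X.basicOpen b).2 hb'
    exact hgoal
  have := IsLocalization.isLocalization_of_submonoid_le (X.presheaf.stalk x) (X.presheaf.stalk y)
    _ _ hle
  exact UniqueFactorizationMonoid.of_isLocalization
    (((hW.primeIdealOf ⟨y, hyW⟩).asIdeal.primeCompl).map
      (algebraMap Γ(X, W) (X.presheaf.stalk x))) (X.presheaf.stalk y)

/-- On a quasi-compact scheme, if the local rings at all closed points are UFDs then all local
rings are UFDs. -/
theorem ufd_stalks_of_closedPoints {X : Scheme.{u}} [CompactSpace X]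
    (h : ∀ x : X, IsClosed ({x} : Set X) → UniqueFactorizationMonoid (X.presheaf.stalk x))
    (y : X) : UniqueFactorizationMonoid (X.presheaf.stalk y) := by
  obtain ⟨x, hx, hxc⟩ := (isClosed_closure (s := ({y} : Set X))).exists_closed_singleton
    ⟨y, subset_closure rfl⟩
  have hsp : y ⤳ x := specializes_iff_mem_closure.2 hx
  have := h x hxc
  exact ufd_stalk_of_specializes hsp

end Fermat.Agent.AV.Fact49.StalkUFD
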