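import Fermat.Agent.AV.Fact49.Purity
import Fermat.Agent.AV.Fact49.StalkUFD

/-!
# FACT-iv with factoriality only at closed points (helper49)

`exists_cartier_data_of_closedPoints` : same conclusion as `Purity.exists_cartier_data`, assuming
only that the local rings at the *closed* points of the quasi-compact scheme `X` are UFDs.
-/

open AlgebraicGeometry CategoryTheory Opposite TopologicalSpace
open Fermat.Agent.AV.Fact49.Purity Fermat.Agent.AV.Fact49.StalkUFD

universe u

namespace Fermat.Agent.AV.Fact49.PurityClosed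

theorem exists_cartier_data_of_closedPoints {X : Scheme.{u}} [IsIntegral X] [X.IsSeparated]
    [IsLocallyNoetherian X] [CompactSpace X]
    (hfact : ∀ x : X, IsClosed ({x} : Set X) → UniqueFactorizationMonoid (X.presheaf.stalk x))
    {U : X.Opens} (hU : IsAffineOpen U) [hne : Nonempty U] :
    ∃ (W : X → X.affineOpens) (g : ∀ x : X, Γ(X, (W x).1)),
      (∀ x, x ∈ (W x).1) ∧ (∀ x, g x ≠ 0) ∧
      (∀ x, (Scheme.IdealSheafData.vanishingIdeal (complCloseds U)).ideal (W x) =
        Ideal.span {g x}) ∧
      (∀ x, X.basicOpen (g x) = (W x).1 ⊓ U) ∧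
      (∀ (x y : X) (W'' : X.affineOpens) (h : W''.1 ≤ (W x).1) (h' : W''.1 ≤ (W y).1),
        Associated ((X.presheaf.map (homOfLE h).op).hom (g x))
          ((X.presheaf.map (homOfLE h').op).hom (g y))) :=
  exists_cartier_data (ufd_stalks_of_closedPoints hfact) hU

end Fermat.Agent.AV.Fact49.PurityClosed
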