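import Fermat.Agent.AV.Fact49.UfdAlg
import Fermat.Agent.AV.Fact49.Hartogs

/-!
# FACT-iv: purity inside `Spec S` for a UFD `S` (helper49)

* `purity_Spec` : `S` a UFD, `V ⊆ Spec S` a nonempty affine open, `p ∉ V` a prime all of whose
  strict generisations lie in `V`.  Then `p` is generated by a prime element.
-/

open AlgebraicGeometry CategoryTheory UniqueFactorizationMonoid
open Fermat.Agent.AV.Fact49.UfdAlg Fermat.Agent.AV.Fact49.Hartogs

universe u

namespace Fermat.Agent.AV.Fact49.PuritySpec

theorem purity_Spec (S : Type u) [CommRing S] [IsDomain S] [UniqueFactorizationMonoid S]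
    {V : (Spec (CommRingCat.of S)).Opens} (hV : IsAffineOpen V)
    (hne : ∃ q : PrimeSpectrum S, (show (Spec (CommRingCat.of S) : Scheme) from q) ∈ V)
    (p : PrimeSpectrum S) (hpV : (show (Spec (CommRingCat.of S) : Scheme) from p) ∉ V)
    (hgen : ∀ q : PrimeSpectrum S, q < p → (show (Spec (CommRingCat.of S) : Scheme) from q) ∈ V) :
    ∃ π : S, Prime π ∧ p.asIdeal = Ideal.span {π} := by
  by_contra hcon0
  have hcon : ∀ π : S, Prime π → p.asIdeal ≠ Ideal.span {π} := fun π hπ h => hcon0 ⟨π, hπ, h⟩
  let S' := Localization.AtPrime p.asIdeal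
  let φ : Spec (CommRingCat.of S') ⟶ Spec (CommRingCat.of S) :=
    Spec.map (CommRingCat.ofHom (algebraMap S S'))
  have hV' : IsAffineOpen (φ ⁻¹ᵁ V) := hV.preimage φ
  have hinj : Function.Injective (algebraMap S S') :=
    IsLocalization.injective S' p.asIdeal.primeCompl_le_nonZeroDivisors
  have hφ : ∀ y : PrimeSpectrum S', φ y = PrimeSpectrum.comap (algebraMap S S') y := fun y => rfl
  -- the generic point lies in `V`
  have hbotV : (show (Spec (CommRingCat.of S) : Scheme) from (⊥ : PrimeSpectrum S)) ∈ V := by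
    obtain ⟨q₀, hq₀⟩ := hne
    have hsp : (⊥ : PrimeSpectrum S) ⤳ q₀ := (PrimeSpectrum.le_iff_specializes _ _).1 bot_le
    exact hsp.mem_open V.2 hq₀
  have hne' : Nonempty (φ ⁻¹ᵁ V) := by
    refine ⟨⟨(⊥ : PrimeSpectrum S'), ?_⟩⟩
    change φ (⊥ : PrimeSpectrum S') ∈ V
    rw [hφ]
    have hb : PrimeSpectrum.comap (algebraMap S S') (⊥ : PrimeSpectrum S') = ⊥ := by
      apply PrimeSpectrum.ext
      ext x
      simp only [PrimeSpectrum.comap_asIdeal, Ideal.mem_comap]
      constructor
      · intro hx
        have h0 : algebraMap S S' x = 0 := hx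
        have := hinj (h0.trans (map_zero _).symm)
        rw [this]; exact Ideal.zero_mem _
      · intro hx
        have : x = 0 := hx
        rw [this, map_zero]; exact Ideal.zero_mem _
    rw [hb]
    exact hbotV
  -- comap of the prime generated by `π`
  have hcomap : ∀ π : S, Prime π → π ∈ p.asIdeal →
      Ideal.comap (algebraMap S S') (Ideal.span {algebraMap S S' π}) = Ideal.span {π} := by
    intro π hπ hπp
    have hprime : (Ideal.span {π} : Ideal S).IsPrime :=
      (Ideal.span_singleton_prime hπ.ne_zero).2 hπ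
    have hdisj : Disjoint (p.asIdeal.primeCompl : Set S) (Ideal.span {π} : Ideal S) := by
      rw [Set.disjoint_left]
      intro x hx hx'
      exact hx ((Ideal.span_singleton_le_iff_mem _).2 hπp hx')
    have := IsLocalization.under_map_of_isPrime_disjoint p.asIdeal.primeCompl S' hprime hdisj
    rwa [Ideal.map_span, Set.image_singleton] at this
  have hprime' : ∀ π : S, Prime π → π ∈ p.asIdeal →
      (Ideal.span {algebraMap S S' π} : Ideal S').IsPrime := by
    intro π hπ hπp
    have hprime : (Ideal.span {π} : Ideal S).IsPrime :=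
      (Ideal.span_singleton_prime hπ.ne_zero).2 hπ
    have hdisj : Disjoint (p.asIdeal.primeCompl : Set S) (Ideal.span {π} : Ideal S) := by
      rw [Set.disjoint_left]
      intro x hx hx'
      exact hx ((Ideal.span_singleton_le_iff_mem _).2 hπp hx')
    have := IsLocalization.isPrime_of_isPrime_disjoint p.asIdeal.primeCompl S' _ hprime hdisj
    rwa [Ideal.map_span, Set.image_singleton] at this
  have htop : φ ⁻¹ᵁ V = ⊤ := by
    refine eq_top_of_hartogs_Spec (CommRingCat.of S') hV'
      {y | ∃ π : S, Prime π ∧ π ∈ p.asIdeal ∧ y.asIdeal = Ideal.span {algebraMap S S' π}} ?_ ?_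
    · rintro y ⟨π, hπ, hπp, hy⟩
      change φ y ∈ V
      rw [hφ]
      apply hgen
      have hle : (PrimeSpectrum.comap (algebraMap S S') y).asIdeal = Ideal.span {π} := by
        rw [PrimeSpectrum.comap_asIdeal, hy, hcomap π hπ hπp]
      refine lt_of_le_of_ne ?_ ?_
      · change (PrimeSpectrum.comap (algebraMap S S') y).asIdeal ≤ p.asIdeal
        rw [hle]
        exact (Ideal.span_singleton_le_iff_mem _).2 hπp
      · intro heq
        apply hcon π hπ
        rw [← hle, heq]
    · intro a₀' b₀' hb₀' h
      refine hartogs_atPrime p.asIdeal S' a₀' b₀' hb₀' ?_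
      intro π hπ hπp
      obtain ⟨a', b', hb', hab'⟩ := h ⟨_, hprime' π hπ hπp⟩ ⟨π, hπ, hπp, rfl⟩
      exact ⟨a', b', hb', hab'⟩
  -- the closed point is not in the preimage
  have hclosed : (show (Spec (CommRingCat.of S') : Scheme) from IsLocalRing.closedPoint S') ∈
      φ ⁻¹ᵁ V := by rw [htop]; trivial
  apply hpV
  have : φ (IsLocalRing.closedPoint S') = p := by
    rw [hφ]
    apply PrimeSpectrum.ext
    exact IsLocalization.AtPrime.under_maximalIdeal S' p.asIdeal
  rw [← this]
  exact hclosed


end Fermat.Agent.AV.Fact49.PuritySpec
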