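import Fermat.Agent.AV.Fact49.CartierDiv
import Fermat.Agent.AV.SmoothCompl98All
import Fermat.Agent.AV.Fact7.PowerSeriesUFD

/-!
# Step (6) of the AV masterplan, unconditional (helper49)

Closing file of the FACT chain (FACT-i helper7, FACT-ii helper96, FACT-iii helper98, FACT-iv here).

* `ufm_stalk` : every local ring of a scheme smooth over an algebraically closed field is a UFD.
* `exists_effective_caDiv_of_smooth` : `X` integral separated and smooth over an algebraically
  closed field `K`, `U ⊆ X` a nonempty affine open.  Then there is an effective Cartier divisor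
  `D : PicDiv86.CaDiv X` with `D.support = Uᶜ`.
-/

open AlgebraicGeometry CategoryTheory Opposite TopologicalSpace
open Fermat.Agent.AV.PicDiv86

universe u

namespace Fermat.Agent.AV.Fact49.SmoothCartier

/-- Every local ring of a smooth scheme over an algebraically closed field is a UFD. -/
theorem ufm_stalk {K : Type u} [Field K] [IsAlgClosed K] {X : Scheme.{u}}
    (f : X ⟶ Spec (CommRingCat.of K)) [Smooth f] (z : X) :
    UniqueFactorizationMonoid (X.presheaf.stalk z) := by
  have : Infinite K := IsAlgClosed.instInfinite
  exact (SmoothCompl98.isDomain_and_ufm_stalk_all f (Fact7.ufm_mvPowerSeries_fin K) z).2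

/-- A scheme smooth over a field is locally noetherian. -/
theorem isLocallyNoetherian_of_smooth {K : Type u} [Field K] {X : Scheme.{u}}
    (f : X ⟶ Spec (CommRingCat.of K)) [Smooth f] : IsLocallyNoetherian X :=
  LocallyOfFiniteType.isLocallyNoetherian f

/-- **Step (6).**  On an integral separated scheme smooth over an algebraically closed field, the
complement of a nonempty affine open is the support of an effective Cartier divisor. -/
theorem exists_effective_caDiv_of_smooth {K : Type u} [Field K] [IsAlgClosed K] {X : Scheme.{u}}
    (f : X ⟶ Spec (CommRingCat.of K)) [Smooth f] [IsIntegral X] [X.IsSeparated]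
    {U : X.Opens} (hU : IsAffineOpen U) [Nonempty U] :
    ∃ D : CaDiv X, D.IsEffective ∧ D.support = (U : Set X)ᶜ := by
  have := isLocallyNoetherian_of_smooth f
  exact CartierDiv.exists_effective_caDiv (ufm_stalk f) hU

end Fermat.Agent.AV.Fact49.SmoothCartier
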