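import Mathlib

/-!
# FACT-iv, algebra kernel (helper49)

Pure commutative algebra used in the purity argument:

* `exists_prime_mem_dvd` : in a UFD a nonzero element of a prime ideal has a prime factor in it.
* `hartogs_loc` : "Hartogs for a localisation of a UFD": if `x ∈ Frac S` lies in `S_(π)` for every
  prime element `π ∈ p`, then `x ∈ S_p`.
* `prod_dvd_of_primes` : a product of pairwise non-associated primes dividing `a` divides `a`.
* `hartogs_frac_free`, `hartogs_atPrime` : fraction-free versions, for `S` and for `S_p`.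
* `exists_mul_eq_of_map_principal`, `map_away_eq_span` : spreading out principality of a finitely
  generated ideal from `B_q` to some `B_h`, `h ∉ q`.
-/

namespace Fermat.Agent.AV.Fact49.UfdAlg

open UniqueFactorizationMonoid

section UFD

variable {S : Type*} [CommRing S] [IsDomain S] [UniqueFactorizationMonoid S]

omit [IsDomain S] in
/-- In a UFD, a nonzero element of a prime ideal has a prime factor lying in that ideal. -/
theorem exists_prime_mem_dvd (p : Ideal S) [hp : p.IsPrime] {b : S} (hb : b ∈ p) (hb0 : b ≠ 0) :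
    ∃ π, Prime π ∧ π ∈ p ∧ π ∣ b := by
  have h1 : (factors b).prod ∈ p := by
    obtain ⟨u, hu⟩ := factors_prod hb0
    rwa [← hu, Ideal.mul_unit_mem_iff_mem _ u.isUnit] at hb
  obtain ⟨π, hπ1, hπ2⟩ := (hp.multiset_prod_mem_iff_exists_mem (factors b)).1 h1
  exact ⟨π, prime_of_factor π hπ1, hπ2, dvd_of_mem_factors hπ1⟩

/-- Hartogs for a localisation of a UFD, in elementary form: if `x ∈ Frac S` can be written with
denominator prime to `π` for every prime element `π ∈ p`, then it can be written with denominator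
outside `p`. -/
theorem hartogs_loc {K : Type*} [Field K] [Algebra S K] [IsFractionRing S K]
    (p : Ideal S) [p.IsPrime] (x : K)
    (h : ∀ π : S, Prime π → π ∈ p →
      ∃ a b : S, ¬ π ∣ b ∧ x * algebraMap S K b = algebraMap S K a) :
    ∃ a b : S, b ∉ p ∧ x * algebraMap S K b = algebraMap S K a := by
  obtain ⟨a₀, b₀, hb₀, hx⟩ := IsFractionRing.div_surjective (A := S) x
  have hb₀' : b₀ ≠ 0 := nonZeroDivisors.ne_zero hb₀
  obtain ⟨a', b', c', hrel, ha, hb⟩ := exists_reduced_factors' a₀ b₀ hb₀'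
  have hc0 : c' ≠ 0 := by rintro rfl; exact hb₀' (by simpa using hb.symm)
  have hb'0 : b' ≠ 0 := by rintro rfl; exact hb₀' (by simpa using hb.symm)
  have hinj := IsFractionRing.injective S K
  have hb'K : algebraMap S K b' ≠ 0 := fun h0 => hb'0 (hinj (by simpa using h0))
  have hcK : algebraMap S K c' ≠ 0 := fun h0 => hc0 (hinj (by simpa using h0))
  have hx' : x * algebraMap S K b' = algebraMap S K a' := by
    rw [← hx, ← ha, ← hb, map_mul, map_mul]
    field_simp
  refine ⟨a', b', fun hmem => ?_, hx'⟩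
  obtain ⟨π, hπ, hπp, hπb⟩ := exists_prime_mem_dvd p hmem hb'0
  obtain ⟨a, b, hπb', hab⟩ := h π hπ hπp
  -- `a' * b = a * b'`
  have hcross : a' * b = a * b' := by
    apply hinj
    rw [map_mul, map_mul, ← hx', ← hab]
    ring
  have hπa' : π ∣ a' := by
    have : π ∣ a' * b := by rw [hcross]; exact Dvd.dvd.mul_left hπb a
    exact (hπ.dvd_or_dvd this).resolve_right hπb'
  exact hπ.not_isUnit (hrel hπa' hπb)

/-- A product of pairwise non-associated primes each dividing `a` divides `a`. -/
theorem prod_dvd_of_primes {ι : Type*} (t : Finset ι) (π : ι → S) (hπ : ∀ i ∈ t, Prime (π i))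
    (hne : ∀ i ∈ t, ∀ j ∈ t, i ≠ j → ¬ Associated (π i) (π j)) {a : S}
    (ha : ∀ i ∈ t, π i ∣ a) : (∏ i ∈ t, π i) ∣ a := by
  apply Finset.prod_dvd_of_isRelPrime _ ha
  intro i hi j hj hij
  have hi' := hπ i hi
  have hj' := hπ j hj
  rw [Function.onFun]
  intro d hdi hdj
  by_contra hd
  -- `d` is a non-unit dividing both irreducibles, so associated to both
  have h1 : Associated d (π i) := by
    obtain ⟨e, he⟩ := hdi
    have := hi'.irreducible.isUnit_or_isUnit he
    rcases this with h | h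
    · exact absurd h hd
    · exact ⟨h.unit, by rw [he]; rfl⟩
  have h2 : Associated d (π j) := by
    obtain ⟨e, he⟩ := hdj
    have := hj'.irreducible.isUnit_or_isUnit he
    rcases this with h | h
    · exact absurd h hd
    · exact ⟨h.unit, by rw [he]; rfl⟩
  exact hne i hi j hj hij (h1.symm.trans h2)


/-- Fraction-free Hartogs for a UFD `S` and a prime `p`. -/
theorem hartogs_frac_free (p : Ideal S) [p.IsPrime] (a₀ b₀ : S) (hb₀ : b₀ ≠ 0)
    (h : ∀ π : S, Prime π → π ∈ p → ∃ a b : S, ¬ π ∣ b ∧ a₀ * b = a * b₀) :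
    ∃ a b : S, b ∉ p ∧ a₀ * b = a * b₀ := by
  obtain ⟨a', b', c', hrel, ha, hb⟩ := exists_reduced_factors' a₀ b₀ hb₀
  have hc0 : c' ≠ 0 := by rintro rfl; exact hb₀ (by simpa using hb.symm)
  have hb'0 : b' ≠ 0 := by rintro rfl; exact hb₀ (by simpa using hb.symm)
  refine ⟨a', b', fun hmem => ?_, by rw [← ha, ← hb]; ring⟩
  obtain ⟨π, hπ, hπp, hπb⟩ := exists_prime_mem_dvd p hmem hb'0
  obtain ⟨a, b, hπb', hab⟩ := h π hπ hπp
  have hcross : a' * b = a * b' := by
    apply mul_left_cancel₀ hc0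
    rw [← mul_assoc, ha, hab, ← hb]; ring
  have hπa' : π ∣ a' := by
    have : π ∣ a' * b := by rw [hcross]; exact Dvd.dvd.mul_left hπb a
    exact (hπ.dvd_or_dvd this).resolve_right hπb'
  exact hπ.not_isUnit (hrel hπa' hπb)

/-- Fraction-free Hartogs for the localisation `S' = S_p` of a UFD `S`: the relevant primes of `S'`
are those generated by the prime elements `π ∈ p` of `S`. -/
theorem hartogs_atPrime (p : Ideal S) [p.IsPrime] (S' : Type*) [CommRing S'] [Algebra S S']
    [IsLocalization.AtPrime S' p] (a₀' b₀' : S') (hb₀' : b₀' ≠ 0)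
    (h : ∀ π : S, Prime π → π ∈ p →
      ∃ a' b' : S', b' ∉ Ideal.span {algebraMap S S' π} ∧ a₀' * b' = a' * b₀') :
    b₀' ∣ a₀' := by
  have hinj : Function.Injective (algebraMap S S') :=
    IsLocalization.injective S' p.primeCompl_le_nonZeroDivisors
  obtain ⟨⟨a₀, s⟩, hs⟩ := IsLocalization.surj p.primeCompl a₀'
  obtain ⟨⟨b₀, t⟩, ht⟩ := IsLocalization.surj p.primeCompl b₀'
  simp only at hs ht
  have hsu : IsUnit (algebraMap S S' s) := IsLocalization.map_units S' s
  have htu : IsUnit (algebraMap S S' t) := IsLocalization.map_units S' t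
  have hb₀ : b₀ ≠ 0 := by
    rintro rfl
    rw [map_zero] at ht
    exact hb₀' ((htu.mul_left_eq_zero).1 ht)
  obtain ⟨a, b, hbp, hab⟩ := hartogs_frac_free p a₀ b₀ hb₀ (by
    intro π hπ hπp
    obtain ⟨a', b', hb', hab'⟩ := h π hπ hπp
    obtain ⟨⟨a, u⟩, hu⟩ := IsLocalization.surj p.primeCompl a'
    obtain ⟨⟨b, v⟩, hv⟩ := IsLocalization.surj p.primeCompl b'
    simp only at hu hv
    refine ⟨a * s * v, b * t * u, ?_, ?_⟩
    · intro hdvd
      have h1 : π ∣ b := by
        rcases hπ.dvd_or_dvd hdvd with h1 | h1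
        · rcases hπ.dvd_or_dvd h1 with h2 | h2
          · exact h2
          · exact absurd (p.mem_of_dvd h2 hπp) t.2  -- placeholder
        · exact absurd (p.mem_of_dvd h1 hπp) u.2
      apply hb'
      have hvu : IsUnit (algebraMap S S' v) := IsLocalization.map_units S' v
      obtain ⟨c, rfl⟩ := h1
      rw [Ideal.mem_span_singleton]
      have : b' = algebraMap S S' π * (algebraMap S S' c * ↑hvu.unit⁻¹) := by
        rw [← mul_assoc, ← map_mul, ← hv, mul_assoc, IsUnit.mul_val_inv, mul_one]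
      rw [this]
      exact Dvd.intro _ rfl
    · apply hinj
      simp only [map_mul]
      rw [← hs, ← hv, ← hu, ← ht]
      linear_combination (algebraMap S S' s * algebraMap S S' v * algebraMap S S' t * algebraMap S S' u) * hab')
  have hbu : IsUnit (algebraMap S S' b) := IsLocalization.map_units S' (⟨b, hbp⟩ : p.primeCompl)
  have e1 := congrArg (algebraMap S S') hab
  simp only [map_mul] at e1
  rw [← hs, ← ht] at e1
  -- a₀' * s * b = a * (b₀' * t)
  refine ⟨algebraMap S S' a * algebraMap S S' t * ↑hbu.unit⁻¹ * ↑hsu.unit⁻¹, ?_⟩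
  have hb1 : algebraMap S S' b * ↑hbu.unit⁻¹ = 1 := by simp
  have hs1 : algebraMap S S' s * ↑hsu.unit⁻¹ = 1 := by simp
  linear_combination (↑hbu.unit⁻¹ * ↑hsu.unit⁻¹ : S') * e1 - (a₀' * ↑hsu.unit⁻¹ * algebraMap S S' s) * hb1 - a₀' * hs1


end UFD

section Spread

/-- Spreading out principality of `J B_q` to an open neighbourhood `D(h)` of `q`:
fraction-free form. -/
theorem exists_mul_eq_of_map_principal {B : Type*} [CommRing B] [IsDomain B] (J : Ideal B)
    (hJ : J.FG) (q : Ideal B) [q.IsPrime]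
    (S : Type*) [CommRing S] [Algebra B S] [IsLocalization.AtPrime S q] (γ : S)
    (hγ : J.map (algebraMap B S) = Ideal.span {γ}) :
    ∃ h, h ∉ q ∧ ∃ g ∈ J, J.map (algebraMap B S) = Ideal.span {algebraMap B S g} ∧
      ∀ j ∈ J, ∃ a, j * h = a * g := by
  classical
  have hinj : Function.Injective (algebraMap B S) :=
    IsLocalization.injective S q.primeCompl_le_nonZeroDivisors
  have hγmem : γ ∈ J.map (algebraMap B S) := by rw [hγ]; exact Ideal.mem_span_singleton_self γ
  obtain ⟨⟨⟨g, hg⟩, s⟩, hgs⟩ := (IsLocalization.mem_map_algebraMap_iff q.primeCompl S).1 hγmem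
  simp only at hgs
  have hsu : IsUnit (algebraMap B S s) := IsLocalization.map_units S s
  have hspan : J.map (algebraMap B S) = Ideal.span {algebraMap B S g} := by
    rw [hγ, ← hgs]
    exact (Ideal.span_singleton_mul_right_unit hsu γ).symm
  -- pointwise statement
  have hpt : ∀ j ∈ J, ∃ h, h ∉ q ∧ ∃ a, j * h = a * g := by
    intro j hj
    have hjm : algebraMap B S j ∈ Ideal.span {algebraMap B S g} := by
      rw [← hspan]; exact Ideal.mem_map_of_mem _ hj
    obtain ⟨c, hc⟩ := Ideal.mem_span_singleton'.1 hjm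
    obtain ⟨⟨a, t⟩, hat⟩ := IsLocalization.surj q.primeCompl c
    simp only at hat
    refine ⟨t, t.2, a, ?_⟩
    apply hinj
    rw [map_mul, map_mul, ← hc, ← hat]
    ring
  obtain ⟨F, hF⟩ := hJ
  choose! hh hhq ha using hpt
  have hFJ : ∀ j ∈ F, j ∈ J := fun j hj => hF ▸ Ideal.subset_span hj
  refine ⟨∏ j ∈ F, hh j, ?_, g, hg, hspan, ?_⟩
  · intro hmem
    obtain ⟨j, hjF, hjq⟩ := (Ideal.IsPrime.prod_mem_iff (hp := ‹q.IsPrime›)).1 hmem
    exact hhq j (hFJ j hjF) hjq
  · intro j hj
    rw [← hF] at hj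
    refine Submodule.span_induction ?_ ?_ ?_ ?_ hj
    · intro x hx
      obtain ⟨a, ha'⟩ := ha x (hFJ x hx)
      obtain ⟨c, hc⟩ := Finset.dvd_prod_of_mem hh hx
      refine ⟨a * c, ?_⟩
      rw [hc, ← mul_assoc, ha']
      ring
    · exact ⟨0, by simp⟩
    · rintro x y _ _ ⟨a, ha'⟩ ⟨b, hb'⟩
      exact ⟨a + b, by rw [add_mul, add_mul, ha', hb']⟩
    · rintro r x _ ⟨a, ha'⟩
      exact ⟨r * a, by rw [smul_eq_mul, mul_assoc, ha', mul_assoc]⟩

/-- consequence: after inverting `h`, `J` becomes principal generated by `g` -/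
theorem map_away_eq_span {B : Type*} [CommRing B] (J : Ideal B) (h g : B) (hg : g ∈ J)
    (hJ : ∀ j ∈ J, ∃ a, j * h = a * g)
    (T : Type*) [CommRing T] [Algebra B T] [IsLocalization.Away h T] :
    J.map (algebraMap B T) = Ideal.span {algebraMap B T g} := by
  apply le_antisymm
  · rw [Ideal.map_le_iff_le_comap]
    intro j hj
    obtain ⟨a, ha⟩ := hJ j hj
    rw [Ideal.mem_comap, Ideal.mem_span_singleton]
    have hu : IsUnit (algebraMap B T h) := IsLocalization.Away.algebraMap_isUnit h
    have e := congrArg (algebraMap B T) ha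
    rw [map_mul, map_mul] at e
    refine ⟨algebraMap B T a * ↑hu.unit⁻¹, ?_⟩
    have h1 : algebraMap B T h * ↑hu.unit⁻¹ = 1 := by simp
    linear_combination (↑hu.unit⁻¹ : T) * e - algebraMap B T j * h1
  · rw [Ideal.span_singleton_le_iff_mem]
    exact Ideal.mem_map_of_mem _ hg


end Spread

end Fermat.Agent.AV.Fact49.UfdAlg
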