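import Mathlib

/-!
# FACT-i, abstract Weierstrass step (helper49)

`A` a complete local domain which is a UFD.

* `irreducible_of_irreducible_coe` : a distinguished polynomial which is irreducible as a power
  series is irreducible as a polynomial.
* `prime_of_irreducible_of_map_ne_zero` : an irreducible `g : A⟦X⟧` which is `X`-regular
  (`g.map (residue A) ≠ 0`) is prime.
* `ufm_of_forall_irreducible_prime` : a noetherian domain in which irreducibles are prime is a UFD.
* `ufm_of_regularisable` : if every irreducible `g` of a noetherian domain `R` can be moved by a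
  ring automorphism `σ` of `R` and a ring isomorphism `e : R ≃+* A⟦X⟧` to an `X`-regular series,
  then `R` is a UFD.
-/

open Polynomial PowerSeries

namespace Fermat.Agent.AV.Fact49.WeierPrime

variable {A : Type*} [CommRing A] [IsDomain A] [IsLocalRing A]

/-- A monic polynomial whose reduction mod `m` is `X ^ d`, and which is irreducible as a power
series, is irreducible as a polynomial. -/
theorem irreducible_of_irreducible_coe {f : A[X]}
    (hf : f.IsDistinguishedAt (IsLocalRing.maximalIdeal A))
    (hirr : Irreducible (f : A⟦X⟧)) : Irreducible f := by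
  have hmonic := hf.monic
  have hmap : f.map (IsLocalRing.residue A) = Polynomial.X ^ f.natDegree := hf.map_eq_X_pow
  -- f is not a unit
  have hnu : ¬ IsUnit f := by
    intro hu
    exact hirr.not_isUnit (hu.map (Polynomial.coeToPowerSeries.ringHom (R := A)))
  refine ⟨hnu, ?_⟩
  intro a b hab
  -- leading coefficients are units
  have hlc : a.leadingCoeff * b.leadingCoeff = 1 := by
    rw [← Polynomial.leadingCoeff_mul, ← hab]; exact hmonic
  have hau : IsUnit a.leadingCoeff := IsUnit.of_mul_eq_one _ hlc
  have hbu : IsUnit b.leadingCoeff := IsUnit.of_mul_eq_one _ (by rw [mul_comm]; exact hlc)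
  have hcoe : (f : A⟦X⟧) = (a : A⟦X⟧) * (b : A⟦X⟧) := by rw [hab, Polynomial.coe_mul]
  -- key: a polynomial with unit leading coefficient dividing f whose constant coeff is a unit
  -- has degree 0
  have key : ∀ (c d : A[X]), f = c * d → IsUnit c.leadingCoeff → IsUnit ((c : A[X]) : A⟦X⟧) →
      IsUnit c := by
    intro c d hcd hcu hcps
    have hc0 : IsUnit (c.coeff 0) := by
      have := PowerSeries.isUnit_iff_constantCoeff.1 hcps
      simpa using this
    have hcm : c.map (IsLocalRing.residue A) ∣ Polynomial.X ^ f.natDegree := by
      rw [← hmap, hcd, Polynomial.map_mul]; exact dvd_mul_right _ _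
    obtain ⟨i, -, hi⟩ := (dvd_prime_pow Polynomial.prime_X _).1 hcm
    have hi0 : i = 0 := by
      by_contra hne
      have h1 : (Polynomial.X : (IsLocalRing.ResidueField A)[X]) ∣
          c.map (IsLocalRing.residue A) :=
        (dvd_pow_self _ hne).trans hi.symm.dvd
      rw [Polynomial.X_dvd_iff, Polynomial.coeff_map] at h1
      have : IsUnit (IsLocalRing.residue A (c.coeff 0)) := hc0.map _
      exact this.ne_zero h1
    rw [hi0, pow_zero] at hi
    have hunit : IsUnit (c.map (IsLocalRing.residue A)) := associated_one_iff_isUnit.1 hi
    have hdeg : (c.map (IsLocalRing.residue A)).natDegree = c.natDegree :=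
      Polynomial.natDegree_map_of_leadingCoeff_ne_zero _ (by
        exact (hcu.map (IsLocalRing.residue A)).ne_zero)
    have hdeg0 : c.natDegree = 0 := by
      rw [← hdeg]; exact Polynomial.natDegree_eq_zero_of_isUnit hunit
    rw [Polynomial.eq_C_of_natDegree_eq_zero hdeg0]
    have : c.coeff 0 = c.leadingCoeff := by
      rw [Polynomial.leadingCoeff, hdeg0]
    rw [this]
    exact hcu.map Polynomial.C
  rcases hirr.isUnit_or_isUnit hcoe with h | h
  · exact Or.inl (key a b hab hau h)
  · exact Or.inr (key b a (by rw [hab, mul_comm]) hbu h)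


/-- **Weierstrass step.**  Over a complete local UFD `A`, an irreducible power series which is
`X`-regular (nonzero modulo the maximal ideal of `A`) is prime. -/
theorem prime_of_irreducible_of_map_ne_zero [UniqueFactorizationMonoid A]
    [IsAdicComplete (IsLocalRing.maximalIdeal A) A] {g : A⟦X⟧} (hirr : Irreducible g)
    (hg : g.map (IsLocalRing.residue A) ≠ 0) : Prime g := by
  obtain ⟨f, h, H⟩ := PowerSeries.exists_isWeierstrassFactorization hg
  have hfirr : Irreducible (f : A⟦X⟧) := by
    have hass : Associated (f : A⟦X⟧) g := ⟨H.isUnit.unit, H.eq_mul.symm⟩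
    exact hass.symm.irreducible hirr
  have hfpoly : Irreducible f := irreducible_of_irreducible_coe H.isDistinguishedAt hfirr
  have hfprime : Prime f := UniqueFactorizationMonoid.irreducible_iff_prime.1 hfpoly
  have hIprime : (Ideal.span {f} : Ideal A[X]).IsPrime :=
    (Ideal.span_singleton_prime hfprime.ne_zero).2 hfprime
  have hdom : IsDomain (A[X] ⧸ Ideal.span {f}) := (Ideal.Quotient.isDomain_iff_prime _).2 hIprime
  have hdom' : IsDomain (A⟦X⟧ ⧸ Ideal.span {g}) :=
    H.algEquivQuotient.symm.toMulEquiv.isDomain
  have hgprime : (Ideal.span {g} : Ideal A⟦X⟧).IsPrime :=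
    (Ideal.Quotient.isDomain_iff_prime _).1 hdom'
  exact (Ideal.span_singleton_prime hirr.ne_zero).1 hgprime

/-- A domain with well-founded divisibility in which every irreducible is prime is a UFD. -/
theorem ufm_of_forall_irreducible_prime {R : Type*} [CommRing R] [IsDomain R] [WfDvdMonoid R]
    (h : ∀ g : R, Irreducible g → Prime g) : UniqueFactorizationMonoid R :=
  { toIsWellFounded := inferInstance
    irreducible_iff_prime := fun {a} => ⟨h a, Prime.irreducible⟩ }

/-- **Wrapper.**  Let `R` be a domain with well-founded divisibility (e.g. noetherian).  Suppose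
every irreducible `g : R` can be transported, by a ring isomorphism `e : R ≃+* A⟦X⟧` onto power
series over some complete local UFD `A` (possibly depending on `g`; typically `e = e₀ ∘ σ` with `σ`
a coordinate change), to an `X`-regular power series.  Then `R` is a UFD. -/
theorem ufm_of_regularisable {R : Type*} [CommRing R] [IsDomain R] [WfDvdMonoid R]
    (h : ∀ g : R, Irreducible g → ∃ (B : Type*) (_ : CommRing B) (_ : IsDomain B)
      (_ : IsLocalRing B) (_ : UniqueFactorizationMonoid B)
      (_ : IsAdicComplete (IsLocalRing.maximalIdeal B) B) (e : R ≃+* B⟦X⟧),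
      (e g).map (IsLocalRing.residue B) ≠ 0) : UniqueFactorizationMonoid R := by
  apply ufm_of_forall_irreducible_prime
  intro g hg
  obtain ⟨B, _, _, _, _, _, e, he⟩ := h g hg
  have hirr : Irreducible (e g) := (MulEquiv.irreducible_iff e.toMulEquiv).2 hg
  have hprime : Prime (e g) := prime_of_irreducible_of_map_ne_zero hirr he
  exact (MulEquiv.prime_iff e.toMulEquiv).1 hprime

end Fermat.Agent.AV.Fact49.WeierPrime
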